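/-
MAZUR (Track M), package (E1)(JH) (helper7), part 1: **unipotent groups in characteristic `P` have
fixed vectors**.

`X` an abelian group killed by the prime `P`, with an action of a group `G`.

* `mzjQ g e : X →+ X`, `x ↦ g • g • x - (1 + e) • g • x + e • x` (`= (g - 1)(g - e)`);
* `mzj_pow_smul_eq` : if `(h - 1)^2` is nilpotent on `X` then `h ^ (P ^ s)` acts trivially on `X`
  for some `s`;
* `mzj_exists_fixed` : a subgroup `H ≤ G` all of whose elements act with `P`-power order on the
  finite nonzero `X` has a nonzero fixed vector (`P`-group fixed point counting).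
-/
import Mathlib

set_option autoImplicit false
set_option linter.unusedSectionVars false
set_option linter.style.haveILetI false

namespace Fermat.Agent.Mazur

section

variable {G : Type*} [Group G] {X : Type*} [AddCommGroup X] [DistribMulAction G X]

/-- the operator `(g - 1)(g - e)` -/
def mzjQ (g : G) (e : ℕ) : X →+ X :=
  (DistribSMul.toAddMonoidHom X g).comp (DistribSMul.toAddMonoidHom X g)
    - (1 + e) • DistribSMul.toAddMonoidHom X g + e • AddMonoidHom.id X

theorem mzjQ_apply (g : G) (e : ℕ) (x : X) :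
    mzjQ g e x = g • g • x - (1 + e) • g • x + e • x := rfl

/-- equivariant additive maps commute with `mzjQ` -/
theorem mzjQ_map {Y : Type*} [AddCommGroup Y] [DistribMulAction G Y] (f : X →+ Y)
    (hf : ∀ (g : G) (x : X), f (g • x) = g • f x) (g : G) (e : ℕ) (x : X) :
    f (mzjQ g e x) = mzjQ g e (f x) := by
  rw [mzjQ_apply, mzjQ_apply, map_add, map_sub, map_nsmul, map_nsmul]
  simp only [hf]

theorem mzjQ_iterate_map {Y : Type*} [AddCommGroup Y] [DistribMulAction G Y] (f : X →+ Y)
    (hf : ∀ (g : G) (x : X), f (g • x) = g • f x) (g : G) (e : ℕ) (r : ℕ) (x : X) :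
    f ((mzjQ g e)^[r] x) = (mzjQ g e)^[r] (f x) := by
  induction r generalizing x with
  | zero => rfl
  | succ r ih =>
    rw [Function.iterate_succ_apply, Function.iterate_succ_apply, ih, mzjQ_map f hf]

/-- `mzjQ h 1 = (h - 1)^2` in the endomorphism ring -/
theorem mzjQ_one_eq (h : G) :
    (mzjQ h 1 : AddMonoid.End X) =
      (DistribMulAction.toAddMonoidEnd G X h - 1) * (DistribMulAction.toAddMonoidEnd G X h - 1) := by
  ext x
  show h • h • x - (1 + 1) • h • x + 1 • x = h • (h • x - x) - (h • x - x)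
  rw [smul_sub, add_smul, one_smul, one_smul]
  abel

variable {P : ℕ}

/-- the endomorphism ring of a nonzero group killed by the prime `P` has characteristic `P` -/
theorem mzj_charP (hP : P.Prime) [Nontrivial X] (hPX : ∀ x : X, P • x = 0) :
    CharP (AddMonoid.End X) P := by
  haveI : Fact P.Prime := ⟨hP⟩
  refine ⟨fun n => ⟨fun h => ?_, fun h => ?_⟩⟩
  · obtain ⟨x, hx⟩ := exists_ne (0 : X)
    have h1 : n • x = 0 := by
      have := congrArg (fun f : AddMonoid.End X => f x) h
      simpa using this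
    have h2 : addOrderOf x = P := addOrderOf_eq_prime (hPX x) hx
    rw [← h2]
    exact addOrderOf_dvd_of_nsmul_eq_zero h1
  · obtain ⟨c, rfl⟩ := h
    ext x
    show ((P * c : ℕ) : AddMonoid.End X) x = 0
    rw [AddMonoid.End.natCast_apply, mul_comm, mul_smul, hPX, smul_zero]

/-- if `(h - 1)^2` is nilpotent on `X` (killed by `P`) then `h ^ (P ^ s)` acts trivially -/
theorem mzj_pow_smul_eq (hP : P.Prime) (hPX : ∀ x : X, P • x = 0) (h : G) {r : ℕ}
    (hr : ∀ x : X, (mzjQ h 1)^[r] x = 0) : ∃ s : ℕ, ∀ x : X, h ^ (P ^ s) • x = x := by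
  rcases subsingleton_or_nontrivial X with hX | hX
  · exact ⟨0, fun x => Subsingleton.elim _ _⟩
  haveI : Fact P.Prime := ⟨hP⟩
  haveI := mzj_charP hP hPX
  set a : AddMonoid.End X := DistribMulAction.toAddMonoidEnd G X h with ha
  set D : AddMonoid.End X := a - 1 with hD
  have h1 : (D * D) ^ r = 0 := by
    rw [← mzjQ_one_eq]
    ext x
    rw [AddMonoid.End.coe_pow]
    exact hr x
  have h2 : D ^ (2 * r) = 0 := by
    rw [pow_mul, pow_two]
    exact h1
  have h3 : 2 * r ≤ P ^ (2 * r) := (Nat.lt_pow_self hP.one_lt).le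
  have h4 : D ^ (P ^ (2 * r)) = 0 := by
    obtain ⟨d, hd⟩ := Nat.exists_eq_add_of_le h3
    rw [hd, pow_add, h2, zero_mul]
  refine ⟨2 * r, fun x => ?_⟩
  have h5 : a ^ (P ^ (2 * r)) = 1 := by
    have : a = D + 1 := by rw [hD]; abel
    rw [this, add_pow_char_pow_of_commute P (2 * r) (Commute.one_right D), h4, one_pow, zero_add]
  have h6 : a ^ (P ^ (2 * r)) = DistribMulAction.toAddMonoidEnd G X (h ^ (P ^ (2 * r))) := by
    rw [ha, map_pow]
  have h7 := congrArg (fun f : AddMonoid.End X => f x) h5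
  rw [h6] at h7
  exact h7

/-- **fixed vectors**: a subgroup all of whose elements act with `P`-power order on the finite
nonzero group `X` (killed by `P`) has a nonzero fixed vector -/
theorem mzj_exists_fixed [Finite X] [Nontrivial X] (hP : P.Prime) (hPX : ∀ x : X, P • x = 0)
    (H : Subgroup G) (hH : ∀ h ∈ H, ∃ s : ℕ, ∀ x : X, h ^ (P ^ s) • x = x) :
    ∃ v : X, v ≠ 0 ∧ ∀ h ∈ H, h • v = v := by
  haveI : Fact P.Prime := ⟨hP⟩
  let f : ↥H →* Equiv.Perm X := MulAction.toPermHom ↥H X
  let K : Subgroup (Equiv.Perm X) := f.range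
  have hK : IsPGroup P ↥K := by
    rintro ⟨_, ⟨h, rfl⟩⟩
    obtain ⟨s, hs⟩ := hH h h.2
    refine ⟨s, Subtype.ext ?_⟩
    show (f h) ^ (P ^ s) = 1
    rw [← map_pow]
    ext x
    show (h ^ (P ^ s)) • x = x
    rw [Subgroup.smul_def, Subgroup.coe_pow]
    exact hs x
  have hcard : P ∣ Nat.card X := by
    obtain ⟨x, hx⟩ := exists_ne (0 : X)
    have h2 : addOrderOf x = P := addOrderOf_eq_prime (hPX x) hx
    rw [← h2]
    exact addOrderOf_dvd_natCard x
  have h0 : (0 : X) ∈ MulAction.fixedPoints ↥K X := by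
    rintro ⟨_, ⟨h, rfl⟩⟩
    show (f h) (0 : X) = 0
    show h • (0 : X) = 0
    exact smul_zero h
  obtain ⟨b, hb, hb0⟩ := hK.exists_fixed_point_of_prime_dvd_card_of_fixed_point X hcard h0
  refine ⟨b, fun h => hb0 h.symm, fun h hh => ?_⟩
  have := hb ⟨f ⟨h, hh⟩, ⟨⟨h, hh⟩, rfl⟩⟩
  exact this

end

end Fermat.Agent.Mazur
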