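/-
MAZUR (Track M), package (E1)(JH) (helper7), part 2: **the eigenvector lemma**.

`X` a finite nonzero abelian group killed by the prime `P`, with an action of a group `G`,
`χ : G →* (ZMod P)ˣ` a character, such that `(g - 1)(g - χ(g))` is nilpotent on `X` for every
`g ∈ G`.  Then there is a nonzero `v ∈ X` on which `G` acts trivially, or through `χ`
(`mzj_exists_eigen`).

Proof: `H = ker χ` acts unipotently, hence through a `P`-group, hence has nonzero fixed vectors
`W = X^H`; `G / H` is cyclic, generated by `g₀`; on `W` the operator `(g₀ - 1)(g₀ - c)` is nilpotent,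
so some nonzero `w₁ ∈ W` is killed by it; `w₁` or `(g₀ - c) w₁` is the eigenvector.
-/
import Fermat.Agent.Lib.Mazur.E.JH.Fixed

set_option autoImplicit false
set_option linter.unusedSectionVars false
set_option linter.style.haveILetI false

namespace Fermat.Agent.Mazur

section

variable {G : Type*} [Group G] {X : Type*} [AddCommGroup X] [DistribMulAction G X] {P : ℕ}

/-- multiples of an element killed by `P` only depend on the multiplier modulo `P` -/
theorem mzj_nsmul_congr {v : X} (hv : P • v = 0) {a b : ℕ} (h : a ≡ b [MOD P]) :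
    a • v = b • v := by
  have key : ∀ n : ℕ, n • v = (n % P) • v := by
    intro n
    conv_lhs => rw [← Nat.div_add_mod n P]
    rw [add_smul, mul_comm, mul_smul, hv, smul_zero, zero_add]
  rw [key a, key b, h]

/-- the value of a power of a unit of `ZMod P` -/
theorem mzj_val_pow_modEq [Fact P.Prime] (u w : (ZMod P)ˣ) (a : ℕ) (h : u = w ^ a) :
    (u : ZMod P).val ≡ (w : ZMod P).val ^ a [MOD P] := by
  rw [← ZMod.natCast_eq_natCast_iff, Nat.cast_pow, ZMod.natCast_zmod_val, ZMod.natCast_zmod_val,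
    h, Units.val_pow_eq_pow_val]

/-- **the eigenvector lemma** -/
theorem mzj_exists_eigen [Finite X] [Nontrivial X] (hP : P.Prime) (hPX : ∀ x : X, P • x = 0)
    (χ : G →* (ZMod P)ˣ)
    (hq : ∀ g : G, ∃ r : ℕ, ∀ x : X, (mzjQ g ((χ g : ZMod P).val))^[r] x = 0) :
    ∃ v : X, v ≠ 0 ∧
      ((∀ g : G, g • v = v) ∨ (∀ g : G, g • v = ((χ g : ZMod P).val) • v)) := by
  haveI : Fact P.Prime := ⟨hP⟩
  haveI : Fact (1 < P) := ⟨hP.one_lt⟩
  -- the kernel acts through a `P`-group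
  have hH : ∀ h ∈ χ.ker, ∃ s : ℕ, ∀ x : X, h ^ (P ^ s) • x = x := by
    intro h hh
    obtain ⟨r, hr⟩ := hq h
    have h1 : ((χ h : (ZMod P)ˣ) : ZMod P).val = 1 := by
      rw [MonoidHom.mem_ker.mp hh, Units.val_one, ZMod.val_one]
    rw [h1] at hr
    exact mzj_pow_smul_eq hP hPX h hr
  obtain ⟨v₀, hv₀, hv₀H⟩ := mzj_exists_fixed hP hPX χ.ker hH
  -- the fixed vectors of the kernel
  let W : AddSubgroup X :=
    { carrier := {x | ∀ h ∈ χ.ker, h • x = x}
      zero_mem' := fun h _ => smul_zero h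
      add_mem' := fun {x y} hx hy h hh => by rw [smul_add, hx h hh, hy h hh]
      neg_mem' := fun {x} hx h hh => by rw [smul_neg, hx h hh] }
  have hWmem : ∀ x : X, x ∈ W ↔ ∀ h ∈ χ.ker, h • x = x := fun x => Iff.rfl
  have hWstab : ∀ (g : G), ∀ x ∈ W, g • x ∈ W := by
    intro g x hx h hh
    have h1 : g⁻¹ * h * g ∈ χ.ker := by
      rw [MonoidHom.mem_ker, map_mul, map_mul, MonoidHom.mem_ker.mp hh, mul_one, ← map_mul,
        inv_mul_cancel, map_one]
    have h2 := hx _ h1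
    calc h • g • x = g • (g⁻¹ * h * g) • x := by
          rw [← mul_smul, ← mul_smul, ← mul_assoc, ← mul_assoc, mul_inv_cancel, one_mul]
      _ = g • x := by rw [h2]
  -- elements with the same character value act in the same way on `W`
  have hsame : ∀ (g g' : G), χ g = χ g' → ∀ x ∈ W, g • x = g' • x := by
    intro g g' hgg' x hx
    have h1 : g'⁻¹ * g ∈ χ.ker := by
      rw [MonoidHom.mem_ker, map_mul, map_inv, hgg', inv_mul_cancel]
    have h2 := hx _ h1
    calc g • x = g' • (g'⁻¹ * g) • x := by rw [← mul_smul, ← mul_assoc, mul_inv_cancel, one_mul]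
      _ = g' • x := by rw [h2]
  -- a generator of the image of `χ`
  obtain ⟨g₀, hg₀⟩ : ∃ g₀ : G, ∀ g : G, ∃ a : ℕ, χ g = χ g₀ ^ a := by
    obtain ⟨⟨u, g₀, rfl⟩, hu⟩ := IsCyclic.exists_generator (α := ↥χ.range)
    refine ⟨g₀, fun g => ?_⟩
    have h1 := hu ⟨χ g, g, rfl⟩
    rw [← mem_powers_iff_mem_zpowers, Submonoid.mem_powers_iff] at h1
    obtain ⟨a, ha⟩ := h1
    refine ⟨a, ?_⟩
    have := congrArg Subtype.val ha
    rw [SubmonoidClass.coe_pow] at this
    exact this.symm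
  set c : ℕ := ((χ g₀ : (ZMod P)ˣ) : ZMod P).val with hc
  obtain ⟨r, hr⟩ := hq g₀
  -- the operator preserves `W`
  have hQW : ∀ x ∈ W, mzjQ g₀ c x ∈ W := by
    intro x hx
    rw [mzjQ_apply]
    exact W.add_mem (W.sub_mem (hWstab g₀ _ (hWstab g₀ x hx)) (W.nsmul_mem (hWstab g₀ x hx) _))
      (W.nsmul_mem hx _)
  have hQWit : ∀ (j : ℕ), ∀ x ∈ W, (mzjQ g₀ c)^[j] x ∈ W := by
    intro j
    induction j with
    | zero => exact fun x hx => hx
    | succ j ih =>
      intro x hx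
      rw [Function.iterate_succ_apply']
      exact hQW _ (ih x hx)
  -- the last nonzero iterate
  have hex : ∃ j : ℕ, (mzjQ g₀ c)^[j] v₀ = 0 := ⟨r, hr v₀⟩
  classical
  have hj0 : Nat.find hex ≠ 0 := by
    intro h0
    have := Nat.find_spec hex
    rw [h0] at this
    exact hv₀ this
  obtain ⟨j, hj⟩ := Nat.exists_eq_succ_of_ne_zero hj0
  set w₁ : X := (mzjQ g₀ c)^[j] v₀ with hw₁
  have hw₁0 : w₁ ≠ 0 := Nat.find_min hex (by rw [hj]; exact Nat.lt_succ_self j)
  have hw₁Q : mzjQ g₀ c w₁ = 0 := by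
    have := Nat.find_spec hex
    rw [hj, Function.iterate_succ_apply'] at this
    exact this
  have hw₁W : w₁ ∈ W := hQWit j v₀ ((hWmem v₀).mpr hv₀H)
  -- powers of `g₀` on an eigenvector
  have hpow : ∀ (x : X) (m : ℕ), g₀ • x = m • x → ∀ a : ℕ, g₀ ^ a • x = m ^ a • x := by
    intro x m hx a
    induction a with
    | zero => rw [pow_zero, pow_zero, one_smul, one_smul]
    | succ a ih => rw [pow_succ, mul_smul, hx, smul_comm, ih, ← mul_smul, pow_succ, mul_comm]
  by_cases hu : g₀ • w₁ - c • w₁ = 0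
  · -- `w₁` is an eigenvector for `χ`
    refine ⟨w₁, hw₁0, Or.inr fun g => ?_⟩
    obtain ⟨a, ha⟩ := hg₀ g
    have h1 : g • w₁ = g₀ ^ a • w₁ := hsame g (g₀ ^ a) (by rw [ha, map_pow]) w₁ hw₁W
    rw [h1, hpow w₁ c (sub_eq_zero.mp hu) a]
    exact (mzj_nsmul_congr (hPX w₁) (mzj_val_pow_modEq _ _ a ha)).symm
  · -- `(g₀ - c) w₁` is fixed
    refine ⟨g₀ • w₁ - c • w₁, hu, Or.inl fun g => ?_⟩
    have huW : g₀ • w₁ - c • w₁ ∈ W := W.sub_mem (hWstab g₀ w₁ hw₁W) (W.nsmul_mem hw₁W c)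
    have hfix : g₀ • (g₀ • w₁ - c • w₁) = 1 • (g₀ • w₁ - c • w₁) := by
      rw [one_smul, ← sub_eq_zero, ← hw₁Q, mzjQ_apply, smul_sub, smul_comm g₀ c w₁, add_smul,
        one_smul]
      abel
    obtain ⟨a, ha⟩ := hg₀ g
    have h1 : g • (g₀ • w₁ - c • w₁) = g₀ ^ a • (g₀ • w₁ - c • w₁) :=
      hsame g (g₀ ^ a) (by rw [ha, map_pow]) _ huW
    rw [h1, hpow _ 1 hfix a, one_pow, one_smul]

end

end Fermat.Agent.Mazur
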