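/-
MAZUR (Track M), package (E1)(JH) (helper7), part 3: **the Jordan–Hölder flag**.

`X` a finite abelian `P`-group with an action of a group `G`, `χ : G →* (ZMod P)ˣ`, such that
`(g - 1)(g - χ(g))` is nilpotent on `X` for every `g`.  Then `X` has a `G`-stable flag with steps of
index `P` on which `G` acts trivially or through `χ` (`mzj_flag`) — the shape of the hypotheses
of `mzs_main`.
-/
import Fermat.Agent.Lib.Mazur.E.JH.Eigen

set_option autoImplicit false
set_option linter.unusedSectionVars false
set_option linter.style.haveILetI false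

universe u

namespace Fermat.Agent.Mazur

section

variable {G : Type*} [Group G]

section Actions

variable {X : Type*} [AddCommGroup X] [DistribMulAction G X]

/-- the action on a stable subgroup -/
@[instance_reducible] def mzjSubAction (V : AddSubgroup X)
    (hV : ∀ (g : G), ∀ x ∈ V, g • x ∈ V) : DistribMulAction G ↥V where
  smul g x := ⟨g • (x : X), hV g x x.2⟩
  one_smul x := Subtype.ext (one_smul G (x : X))
  mul_smul g h x := Subtype.ext (mul_smul g h (x : X))
  smul_zero g := Subtype.ext (smul_zero g)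
  smul_add g x y := Subtype.ext (smul_add g (x : X) (y : X))

/-- the action of one element on the quotient by a stable subgroup -/
def mzjQuotSmul (L : AddSubgroup X) (hL : ∀ (g : G), ∀ x ∈ L, g • x ∈ L) (g : G) :
    X ⧸ L →+ X ⧸ L :=
  QuotientAddGroup.map L L (DistribSMul.toAddMonoidHom X g) (fun x hx => hL g x hx)

theorem mzjQuotSmul_mk (L : AddSubgroup X) (hL : ∀ (g : G), ∀ x ∈ L, g • x ∈ L) (g : G) (x : X) :
    mzjQuotSmul L hL g (QuotientAddGroup.mk' L x) = QuotientAddGroup.mk' L (g • x) := rfl

/-- the action on the quotient by a stable subgroup -/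
@[instance_reducible] def mzjQuotAction (L : AddSubgroup X)
    (hL : ∀ (g : G), ∀ x ∈ L, g • x ∈ L) : DistribMulAction G (X ⧸ L) where
  smul g y := mzjQuotSmul L hL g y
  one_smul y := by
    obtain ⟨x, rfl⟩ := QuotientAddGroup.mk'_surjective L y
    show mzjQuotSmul L hL 1 (QuotientAddGroup.mk' L x) = _
    rw [mzjQuotSmul_mk, one_smul]
  mul_smul g h y := by
    obtain ⟨x, rfl⟩ := QuotientAddGroup.mk'_surjective L y
    show mzjQuotSmul L hL (g * h) (QuotientAddGroup.mk' L x) =
      mzjQuotSmul L hL g (mzjQuotSmul L hL h (QuotientAddGroup.mk' L x))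
    rw [mzjQuotSmul_mk, mzjQuotSmul_mk, mzjQuotSmul_mk, mul_smul]
  smul_zero g := map_zero (mzjQuotSmul L hL g)
  smul_add g x y := map_add (mzjQuotSmul L hL g) x y

end Actions

/-- the flag property (length `n`, prime `P`, character `χ`) -/
def MzjFlag {P : ℕ} (χ : G →* (ZMod P)ˣ) (X : Type*) [AddCommGroup X] [DistribMulAction G X]
    (n : ℕ) (F : ℕ → AddSubgroup X) : Prop :=
  F 0 = ⊥ ∧ F n = ⊤ ∧ (∀ j < n, F j ≤ F (j + 1)) ∧
    (∀ j ≤ n, ∀ (g : G), ∀ x ∈ F j, g • x ∈ F j) ∧
    (∀ j < n, (F j).relIndex (F (j + 1)) = P) ∧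
    ∀ j < n, (∀ (g : G), ∀ x ∈ F (j + 1), g • x - x ∈ F j) ∨
      (∀ (g : G), ∀ x ∈ F (j + 1), g • x - ((χ g : ZMod P).val) • x ∈ F j)

/-- **the Jordan–Hölder flag** -/
theorem mzj_flag {P : ℕ} (hP : P.Prime) (χ : G →* (ZMod P)ˣ) (n : ℕ) :
    ∀ {X : Type u} [AddCommGroup X] [DistribMulAction G X] [Finite X], Nat.card X = P ^ n →
      (∀ g : G, ∃ r : ℕ, ∀ x : X, (mzjQ g ((χ g : ZMod P).val))^[r] x = 0) →
      ∃ F : ℕ → AddSubgroup X, MzjFlag χ X n F := by
  haveI : Fact P.Prime := ⟨hP⟩
  induction n with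
  | zero =>
    intro X _ _ _ hcard _
    rw [pow_zero] at hcard
    haveI : Subsingleton X := (Nat.card_eq_one_iff_unique.mp hcard).1
    refine ⟨fun _ => ⊥, rfl, ?_, fun j hj => absurd hj (Nat.not_lt_zero j), ?_,
      fun j hj => absurd hj (Nat.not_lt_zero j), fun j hj => absurd hj (Nat.not_lt_zero j)⟩
    · exact Subsingleton.elim _ _
    · intro j _ g x hx
      rw [AddSubgroup.mem_bot] at hx ⊢
      rw [hx, smul_zero]
  | succ n ih =>
    intro X _ _ _ hcard hq
    -- the `P`-torsion
    let V : AddSubgroup X :=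
      { carrier := {x | P • x = 0}
        zero_mem' := smul_zero P
        add_mem' := fun {x y} hx hy => by
          show P • (x + y) = 0
          rw [smul_add, hx, hy, add_zero]
        neg_mem' := fun {x} hx => by
          show P • (-x) = 0
          rw [smul_neg, hx, neg_zero] }
    have hVmem : ∀ x : X, x ∈ V ↔ P • x = 0 := fun x => Iff.rfl
    have hVstab : ∀ (g : G), ∀ x ∈ V, g • x ∈ V := by
      intro g x hx
      show P • (g • x) = 0
      rw [smul_comm, hx, smul_zero]
    letI : DistribMulAction G ↥V := mzjSubAction V hVstab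
    have hVsmul : ∀ (g : G) (y : ↥V), ((g • y : ↥V) : X) = g • (y : X) := fun _ _ => rfl
    haveI : Nontrivial ↥V := by
      have hdvd : P ∣ Nat.card X := by rw [hcard, pow_succ]; exact dvd_mul_left P _
      obtain ⟨x, hx⟩ := exists_prime_addOrderOf_dvd_card' P hdvd
      have hx0 : x ≠ 0 := by
        rintro rfl
        rw [addOrderOf_zero] at hx
        exact hP.one_lt.ne hx
      have hxV : x ∈ V := by
        show P • x = 0
        rw [← hx]
        exact addOrderOf_nsmul_eq_zero x
      exact ⟨⟨⟨x, hxV⟩, 0, fun h => hx0 (congrArg Subtype.val h)⟩⟩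
    have hqV : ∀ g : G, ∃ r : ℕ, ∀ y : ↥V, (mzjQ g ((χ g : ZMod P).val))^[r] y = 0 := by
      intro g
      obtain ⟨r, hr⟩ := hq g
      refine ⟨r, fun y => Subtype.ext ?_⟩
      have := mzjQ_iterate_map V.subtype (fun g y => hVsmul g y) g ((χ g : ZMod P).val) r y
      rw [AddSubgroup.subtype_apply, AddSubgroup.subtype_apply] at this
      rw [this]
      exact hr _
    obtain ⟨v, hv0, hv⟩ := mzj_exists_eigen hP
      (fun y : ↥V => Subtype.ext ((hVmem _).mp y.2)) χ hqV
    -- the line spanned by the eigenvector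
    set v' : X := (v : X) with hv'
    have hv'0 : v' ≠ 0 := fun h => hv0 (Subtype.ext h)
    have hv'P : P • v' = 0 := (hVmem _).mp v.2
    have hv'alt : (∀ g : G, g • v' = v') ∨ (∀ g : G, g • v' = ((χ g : ZMod P).val) • v') := by
      rcases hv with h | h
      · exact Or.inl fun g => by
          have := congrArg Subtype.val (h g)
          rwa [hVsmul] at this
      · exact Or.inr fun g => by
          have := congrArg Subtype.val (h g)
          rwa [hVsmul, AddSubgroup.coe_nsmul] at this
    let L : AddSubgroup X := AddSubgroup.zmultiples v'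
    have hLcard : Nat.card ↥L = P := by
      rw [Nat.card_zmultiples]
      exact addOrderOf_eq_prime hv'P hv'0
    have hLmem : ∀ x : X, x ∈ L ↔ ∃ m : ℤ, m • v' = x := fun x => AddSubgroup.mem_zmultiples_iff
    have hLstab : ∀ (g : G), ∀ x ∈ L, g • x ∈ L := by
      intro g x hx
      obtain ⟨m, rfl⟩ := (hLmem x).mp hx
      rw [smul_comm]
      rcases hv'alt with h | h
      · rw [h g]
        exact (hLmem _).mpr ⟨m, rfl⟩
      · rw [h g]
        exact L.zsmul_mem (L.nsmul_mem ((hLmem _).mpr ⟨1, one_smul _ _⟩) _) m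
    letI : DistribMulAction G (X ⧸ L) := mzjQuotAction L hLstab
    have hmk : ∀ (g : G) (x : X),
        QuotientAddGroup.mk' L (g • x) = g • QuotientAddGroup.mk' L x := fun _ _ => rfl
    have hcardQ : Nat.card (X ⧸ L) = P ^ n := by
      have h1 := AddSubgroup.card_eq_card_quotient_mul_card_addSubgroup L
      rw [hcard, hLcard, pow_succ] at h1
      exact (Nat.eq_of_mul_eq_mul_right hP.pos h1).symm
    have hqQ : ∀ g : G, ∃ r : ℕ, ∀ y : X ⧸ L, (mzjQ g ((χ g : ZMod P).val))^[r] y = 0 := by
      intro g
      obtain ⟨r, hr⟩ := hq g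
      refine ⟨r, fun y => ?_⟩
      obtain ⟨x, rfl⟩ := QuotientAddGroup.mk'_surjective L y
      rw [← mzjQ_iterate_map (QuotientAddGroup.mk' L) hmk, hr, map_zero]
    obtain ⟨F', hF'0, hF'n, hF'mono, hF'stab, hF'card, hF'type⟩ := ih hcardQ hqQ
    -- the flag of `X`
    let F : ℕ → AddSubgroup X := fun j =>
      Nat.casesOn j ⊥ (fun j => (F' j).comap (QuotientAddGroup.mk' L))
    have hFsucc : ∀ j, F (j + 1) = (F' j).comap (QuotientAddGroup.mk' L) := fun _ => rfl
    have hF1 : F 1 = L := by
      show (F' 0).comap (QuotientAddGroup.mk' L) = L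
      rw [hF'0, AddMonoidHom.comap_bot]
      exact (QuotientAddGroup.ker_mk' L)
    refine ⟨F, rfl, ?_, ?_, ?_, ?_, ?_⟩
    · rw [hFsucc, hF'n, AddSubgroup.comap_top]
    · intro j hj
      rcases j with _ | j
      · exact bot_le
      · rw [hFsucc, hFsucc]
        exact AddSubgroup.comap_mono (hF'mono j (Nat.lt_of_succ_lt_succ hj))
    · intro j hj g x hx
      rcases j with _ | j
      · have hx' : x = 0 := (AddSubgroup.mem_bot).mp hx
        rw [hx', smul_zero]
        exact zero_mem _
      · rw [hFsucc, AddSubgroup.mem_comap] at hx ⊢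
        rw [hmk]
        exact hF'stab j (Nat.le_of_succ_le_succ hj) g _ hx
    · intro j hj
      rcases j with _ | j
      · show (⊥ : AddSubgroup X).relIndex (F 1) = P
        rw [AddSubgroup.relIndex_bot_left, hF1, hLcard]
      · rw [hFsucc, hFsucc, AddSubgroup.relIndex_comap,
          AddSubgroup.map_comap_eq_self_of_surjective (QuotientAddGroup.mk'_surjective L)]
        exact hF'card j (Nat.lt_of_succ_lt_succ hj)
    · intro j hj
      rcases j with _ | j
      · have key : ∀ x ∈ F (0 + 1), ∃ m : ℤ, m • v' = x := by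
          intro x hx
          rw [zero_add, hF1] at hx
          exact (hLmem x).mp hx
        rcases hv'alt with h | h
        · refine Or.inl fun g x hx => ?_
          obtain ⟨m, rfl⟩ := key x hx
          show g • m • v' - m • v' ∈ (⊥ : AddSubgroup X)
          rw [AddSubgroup.mem_bot, smul_comm, h g, sub_self]
        · refine Or.inr fun g x hx => ?_
          obtain ⟨m, rfl⟩ := key x hx
          show g • m • v' - _ • m • v' ∈ (⊥ : AddSubgroup X)
          rw [AddSubgroup.mem_bot, smul_comm g m v', h g, smul_comm m _ v', sub_self]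
      · rcases hF'type j (Nat.lt_of_succ_lt_succ hj) with h | h
        · refine Or.inl fun g x hx => ?_
          rw [hFsucc, AddSubgroup.mem_comap] at hx ⊢
          rw [map_sub, hmk]
          exact h g _ hx
        · refine Or.inr fun g x hx => ?_
          rw [hFsucc, AddSubgroup.mem_comap] at hx ⊢
          rw [map_sub, hmk, map_nsmul]
          exact h g _ hx

end

end Fermat.Agent.Mazur
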