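/-
MAZUR (Track M), package (E1)(JH) (helper7), part 4: **the Jordan–Hölder flag of the Eisenstein
part `M k` of `J₀(N)[P^k]`**.

`mzj_main` : `M k = mzehM N P S₀ hS k`, as the `G_ℚ`-module `MzsSub (M k) _`, has a `G_ℚ`-stable flag
with steps of index `P` on which `G_ℚ` acts trivially or through the cyclotomic character mod `P` —
literally the hypotheses `(n, F, hF0, hFn, hmono, hstab, hcard, htype)` of `mzs_main`.

Proof: on the graded pieces of the `𝔪`-adic filtration `mzehFil` one has `P = 0` and `T_q = 1 + q`;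
by Chebotarev (`s58c_exists_frob`) every `g ∈ G_ℚ` acts on `M k × μ_P` like a Frobenius element `φ` at
some `q ∉ S₀`; by Eichler–Shimura (`mzeg_es`) `(φ - 1)(φ - q) = (T_q - 1 - q) φ` there.  So
`(g - 1)(g - χ(g))` is nilpotent on `M k` and the abstract flag theorem `mzj_flag` applies.
-/
import Fermat.Agent.Lib.Mazur.E.Inst
import Fermat.Agent.Lib.Alpha.Fin.Open
import Fermat.Agent.Lib.Mazur.E.JH.Flag
import Fermat.Agent.Lib.Mazur.Sel.SubQuot
import Fermat.Agent.Lib.S58.Cheb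
import Fermat.Agent.Lib.TW.TWPrimes.Cyclo

set_option autoImplicit false
set_option linter.unusedSectionVars false
set_option linter.style.haveILetI false

namespace Fermat.Agent.Mazur

open ModularCurve Fermat.Agent.TW Fermat.Agent.CFT Fermat.Agent.CFT.Pinf

local notation "Qb" => AlgebraicClosure ℚ
local notation "GQ" => (AlgebraicClosure ℚ ≃ₐ[ℚ] AlgebraicClosure ℚ)

section Chi

variable (P : ℕ) [NeZero P]

/-- the character `twpChi P` describes the action on all `P`-th roots of unity -/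
theorem mzj_chi_spec (g : GQ) (ζ : Qb) (hζ : ζ ^ P = 1) :
    g ζ = ζ ^ ((twpChi P g : (ZMod P)ˣ) : ZMod P).val := by
  obtain ⟨i, -, rfl⟩ := (zetaQbar_spec P).eq_pow_of_pow_eq_one hζ
  rw [map_pow, ← twpChi_spec P g, ← pow_mul, ← pow_mul, mul_comm]

/-- the value of `twpChi P` at a Frobenius element at `q ≠ P` is `q` -/
theorem mzj_chi_frobenius (hP : P.Prime) {A : ValuationSubring Qb} {φ : GQ} {q : ℕ}
    (hq : q.Prime) (hqP : q ≠ P) (hA : A.LiesOverPrime q) (hφ : A.IsFrobeniusAt φ q) :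
    ((twpChi P φ : (ZMod P)ˣ) : ZMod P).val ≡ q [MOD P] := by
  have hcop : Nat.Coprime P q := (Nat.coprime_primes hP hq).mpr (Ne.symm hqP)
  have h1 := twp_frobenius_rootOfUnity hA hφ (NeZero.pos P) hcop (zetaQbar_spec P).pow_eq_one
  rw [← twpChi_spec P φ] at h1
  have hfo : IsOfFinOrder (zetaQbar P) :=
    isOfFinOrder_iff_pow_eq_one.mpr ⟨P, NeZero.pos P, (zetaQbar_spec P).pow_eq_one⟩
  have h2 := hfo.pow_eq_pow_iff_modEq.mp h1
  rwa [← (zetaQbar_spec P).eq_orderOf] at h2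

end Chi

section Level

variable (N : ℕ) [NeZero N]

/-- a finite subgroup of torsion points of `J₀(N)` is fixed pointwise by an open subgroup -/
theorem mzj_level_of_finite {m : ℕ} (hm : m ≠ 0) (V : AddSubgroup (JZero N)) [Finite V]
    (htor : ∀ x ∈ V, m • x = 0) :
    ∃ L : IntermediateField ℚ Qb, FiniteDimensional ℚ L ∧
      ∀ σ : GQ, (∀ a ∈ L, σ a = a) → ∀ x ∈ V, σ • x = x := by
  classical
  have h : ∀ x : V, ∃ L : IntermediateField ℚ Qb, FiniteDimensional ℚ L ∧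
      ∀ σ : GQ, (∀ a ∈ L, σ a = a) → σ • (x : JZero N) = x :=
    fun x => Fermat.Agent.Alpha.alpf_open N m hm x (by rw [natCast_zsmul]; exact htor x x.2)
  choose L hL hfix using h
  haveI : ∀ x, FiniteDimensional ℚ (L x) := hL
  refine ⟨⨆ x, L x, IntermediateField.finiteDimensional_iSup_of_finite, fun σ hσ x hx => ?_⟩
  exact hfix ⟨x, hx⟩ σ (fun a ha => hσ a ((le_iSup L ⟨x, hx⟩) ha))

end Level

variable {N : ℕ} [NeZero N] {P : ℕ} {S₀ : Finset ℕ} (hS : MzehGood N P S₀)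

/-- the Eisenstein part `M k` as a `G_ℚ`-module -/
abbrev MzjX (k : ℕ) : Type :=
  MzsSub (mzehM N P S₀ hS k) (fun g _ hx => mzehM_smul_mem hS g hx)

instance (k : ℕ) : Finite (MzjX hS k) := mzehM_finite hS k

/-- the inclusion `M k → J₀(N)` -/
noncomputable abbrev mzjVal (k : ℕ) : MzjX hS k →+ JZero N :=
  mzsSubVal (mzehM N P S₀ hS k) (fun g _ hx => mzehM_smul_mem hS g hx)

theorem mzjVal_smul (k : ℕ) (g : GQ) (x : MzjX hS k) :
    mzjVal hS k (g • x) = g • mzjVal hS k x := rfl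

theorem mzjVal_mem (k : ℕ) (x : MzjX hS k) : mzjVal hS k x ∈ mzehM N P S₀ hS k := x.2

theorem mzjVal_injective (k : ℕ) : Function.Injective (mzjVal hS k) :=
  mzsSubVal_injective _ _

/-- **the key step**: `(g - 1)(g - χ(g))` maps `Fil j` into `Fil (j+1)` -/
theorem mzj_Q_fil [NeZero P] (k : ℕ) (g : GQ) (j : ℕ) {y : JZero N}
    (hy : y ∈ mzehFil N P S₀ hS k j) :
    mzjQ g ((twpChi P g : (ZMod P)ˣ) : ZMod P).val y ∈ mzehFil N P S₀ hS k (j + 1) := by
  classical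
  haveI : Fact (1 < P) := ⟨hS.1.one_lt⟩
  haveI := mzehM_finite hS k
  set M := mzehM N P S₀ hS k with hM
  -- finite level
  obtain ⟨L₁, hL₁, hfix⟩ := mzj_level_of_finite N (pow_ne_zero k hS.1.ne_zero) M
    (fun x hx => mzehM_tors hS hx)
  haveI := hL₁
  let L₂ : IntermediateField ℚ Qb := IntermediateField.adjoin ℚ {zetaQbar P}
  haveI hL₂ : FiniteDimensional ℚ L₂ :=
    IntermediateField.adjoin.finiteDimensional
      ((zetaQbar_spec P).isIntegral (NeZero.pos P)).tower_top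
  let ρ : GQ →* Equiv.Perm (MzjX hS k) × (ZMod P)ˣ :=
    (MulAction.toPermHom GQ (MzjX hS k)).prod (twpChi P)
  have hρ : GaloisFactorsThroughFiniteLevel ρ := by
    refine ⟨L₁ ⊔ L₂, inferInstance, fun σ hσ => ?_⟩
    refine Prod.ext ?_ ?_
    · ext x
      apply mzjVal_injective hS k
      show mzjVal hS k (σ • x) = mzjVal hS k x
      rw [mzjVal_smul]
      exact hfix σ (fun a ha => hσ a ((le_sup_left : L₁ ≤ L₁ ⊔ L₂) ha)) _ (mzjVal_mem hS k x)
    · show twpChi P σ = 1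
      rw [twpChi_eq_one_iff]
      exact hσ _ ((le_sup_right : L₂ ≤ L₁ ⊔ L₂)
        (IntermediateField.subset_adjoin ℚ _ (Set.mem_singleton _)))
  obtain ⟨q, hq, hqS, A, φ, hA, hφ, hρφ⟩ := Fermat.Agent.S58.s58c_exists_frob ρ hρ S₀ g
  have hφM : ∀ x ∈ M, φ • x = g • x := by
    intro x hx
    have h1 := congrArg Prod.fst hρφ
    have h2 := congrArg (fun s : Equiv.Perm (MzjX hS k) => mzjVal hS k (s ⟨x, hx⟩)) h1
    exact h2
  have hφχ : twpChi P φ = twpChi P g := congrArg Prod.snd hρφ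
  -- the prime `q` as an index
  let qi : MzehIdx S₀ := ⟨⟨q, hq⟩, hqS⟩
  have hqP : q ≠ P := fun h => hqS (h ▸ hS.2.1)
  -- notation
  have hyM : y ∈ M := mzehFil_le hS k j hy
  have hyk : P ^ k • y = 0 := mzehM_tors hS hyM
  set e : ℕ := ((twpChi P g : (ZMod P)ˣ) : ZMod P).val with he
  have heq : e ≡ q [MOD P] := by
    rw [he, ← hφχ]
    exact mzj_chi_frobenius P hS.1 hq hqP hA hφ
  obtain ⟨t, ht⟩ : ∃ t : ℤ, (q : ℤ) = e + P * t := by
    have h1 : (P : ℤ) ∣ (q : ℤ) - e := (Nat.modEq_iff_dvd.mp heq)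
    obtain ⟨t, ht⟩ := h1
    exact ⟨t, by rw [← ht]; ring⟩
  have hb : φ • y ∈ mzehFil N P S₀ hS k j := mzehFil_smul_mem hS φ hy
  have hgy : g • y = φ • y := (hφM y hyM).symm
  have hggy : g • g • y = φ • φ • y := by
    rw [hgy, (hφM (φ • y) (mzehM_smul_mem hS φ hyM)).symm]
  have hES := mzeg_es N qi.1 (hS.not_dvd qi) A hA hφ (hS.not_dvd_pow qi k) hyk
  have hA1 := mzehFil_T_sub hS hb qi
  have hB1 : P • (t • (φ • y - y)) ∈ mzehFil N P S₀ hS k (j + 1) :=
    mzehFil_P_smul hS ((mzehFil N P S₀ hS k j).zsmul_mem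
      ((mzehFil N P S₀ hS k j).sub_mem hb hy) t)
  have hsum := (mzehFil N P S₀ hS k (j + 1)).add_mem hA1 hB1
  rw [mzjQ_apply, hggy, hgy]
  convert hsum using 1
  have hq' : ((qi.1 : Nat.Primes) : ℕ) = q := rfl
  rw [hq'] at hES ⊢
  generalize φ • φ • y = a at hES ⊢
  generalize heckeOperatorBar N qi.1 (φ • y) = Tb at hES ⊢
  generalize φ • y = b at hES ⊢
  have ha : a = Tb - (q : ℤ) • y := by
    rw [natCast_zsmul]
    rw [sub_add_eq_add_sub, sub_eq_zero] at hES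
    rw [← hES]
    abel
  rw [ha, ht]
  module

/-- `(g - 1)(g - χ(g))` is nilpotent on `M k` -/
theorem mzj_Q_nilp [NeZero P] (k : ℕ) (g : GQ) :
    ∃ r : ℕ, ∀ x : MzjX hS k,
      (mzjQ g ((twpChi P g : (ZMod P)ˣ) : ZMod P).val)^[r] x = 0 := by
  obtain ⟨r, hr⟩ := mzehFil_eq_bot hS k
  refine ⟨r, fun x => ?_⟩
  have key : ∀ j : ℕ, mzjVal hS k ((mzjQ g ((twpChi P g : (ZMod P)ˣ) : ZMod P).val)^[j] x)
      ∈ mzehFil N P S₀ hS k j := by
    intro j
    induction j with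
    | zero =>
      rw [mzehFil_zero]
      exact mzjVal_mem hS k x
    | succ j ih =>
      rw [Function.iterate_succ_apply']
      have h1 := mzjQ_map (mzjVal hS k) (mzjVal_smul hS k) g
        ((twpChi P g : (ZMod P)ˣ) : ZMod P).val
        ((mzjQ g ((twpChi P g : (ZMod P)ˣ) : ZMod P).val)^[j] x)
      have h2 := mzj_Q_fil hS k g j ih
      rw [← h1] at h2
      exact h2
  have h3 := key r
  rw [hr, AddSubgroup.mem_bot] at h3
  exact mzjVal_injective hS k (h3.trans (map_zero _).symm)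

/-- **the Jordan–Hölder flag of `M k`**, in the shape of the hypotheses of `mzs_main` -/
theorem mzj_main (k : ℕ) :
    ∃ (n : ℕ) (F : ℕ → AddSubgroup (MzjX hS k)), F 0 = ⊥ ∧ F n = ⊤ ∧
      (∀ j < n, F j ≤ F (j + 1)) ∧
      (∀ j ≤ n, ∀ (g : GQ), ∀ x ∈ F j, g • x ∈ F j) ∧
      (∀ j < n, (F j).relIndex (F (j + 1)) = P) ∧
      ∀ j < n, (∀ (g : GQ), ∀ x ∈ F (j + 1), g • x - x ∈ F j) ∨
        (∀ g : GQ, ∃ e : ℕ, (∀ ζ : Qb, ζ ^ P = 1 → g ζ = ζ ^ e) ∧
          ∀ x ∈ F (j + 1), g • x - e • x ∈ F j) := by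
  haveI : NeZero P := ⟨hS.1.ne_zero⟩
  haveI : Fact P.Prime := ⟨hS.1⟩
  -- the order of `M k` is a power of `P`
  obtain ⟨n, hn⟩ : ∃ n : ℕ, Nat.card (MzjX hS k) = P ^ n := by
    have hPG : IsPGroup P (Multiplicative (MzjX hS k)) := by
      intro x
      refine ⟨k, ?_⟩
      have h1 : P ^ k • (Multiplicative.toAdd x : MzjX hS k) = 0 := by
        apply mzjVal_injective hS k
        rw [map_nsmul, map_zero]
        exact mzehM_tors hS (mzjVal_mem hS k _)
      exact congrArg Multiplicative.ofAdd h1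
    obtain ⟨n, hn⟩ := IsPGroup.iff_card.mp hPG
    exact ⟨n, hn⟩
  obtain ⟨F, hF0, hFn, hmono, hstab, hcard, htype⟩ :=
    mzj_flag hS.1 (twpChi P) n hn (mzj_Q_nilp hS k)
  refine ⟨n, F, hF0, hFn, hmono, hstab, hcard, fun j hj => ?_⟩
  rcases htype j hj with h | h
  · exact Or.inl h
  · exact Or.inr fun g => ⟨_, mzj_chi_spec P g, h g⟩

end Fermat.Agent.Mazur
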